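/-
S27lib / T1 / OverC (helper6).
**T1′**: the torsion count over `ℂ` for the function fields carrying a Belyi function
(`BelyiCountAt ℂ n g`), from D3 (uniformisation: `F ≃ₐ[ℂ] FanG Γ` with `GammaHyp Γ`, taken here as
the hypothesis `D3Stmt`), D4 + D5 (`D5.card_torsion_FanG`), the transport along isomorphisms
(helper9's `BR.Transport`) and the uniqueness of the genus.
-/
import Mathlib
import Fermat.Agent.S27lib.Tsig.Transport
import Fermat.Agent.S27lib.D5.TorsionCount
import Fermat.Agent.S27lib.D3.Final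

set_option autoImplicit false
set_option linter.style.haveILetI false
set_option linter.unusedSectionVars false

noncomputable section

namespace Fermat.Agent.S27lib.T1

open AlgebraicCurve IntermediateField Fermat.Agent.S18lib Fermat.Agent.S27lib
open Fermat.Agent.S27lib.BR Fermat.Agent.S27lib.D4 Fermat.Agent.S27lib.Tsig
open scoped MatrixGroups

/-- **the output of D3** (uniformisation of Belyi curves by subgroups of finite index of
`SL(2,ℤ)` without elliptic points) -/
def D3Stmt : Prop :=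
  ∀ (F : Type) [Field F] [Algebra ℂ F] (β : F), Belyi.IsCov ℂ β → Belyi.BranchSet ℂ β ⊆ {0, 1} →
    ∃ (Γ : Subgroup SL(2, ℤ)) (_ : Fintype (SL(2, ℤ) ⧸ Γ)) (_ : F ≃ₐ[ℂ] FanG Γ), GammaHyp Γ

/-- **T1′**: the count over `ℂ` for Belyi curves -/
theorem belyiCountAt_complex (hD3 : D3Stmt) (n g : ℕ) (hn : 0 < n) :
    BelyiCountAt.{0, 0} ℂ n g := by
  intro F _ _ x hx hfin hF hβ
  obtain ⟨β, hcov, hbr⟩ := hβ
  obtain ⟨Γ, _, e, hΓ⟩ := hD3 F β hcov hbr
  have comm : ∀ a : ℂ, e.toRingEquiv (algebraMap ℂ F a) =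
      algebraMap ℂ (FanG Γ) ((RingEquiv.refl ℂ) a) := fun a => e.commutes a
  have hF' : IsCurveOfGenus ℂ (FanG Γ) g :=
    Transport.isCurveOfGenus (RingEquiv.refl ℂ) e.toRingEquiv comm hF
  have hg : g = genusG Γ := RRgen.Canonical.genus_unique hF' (isCurveG Γ)
  rw [Transport.card_torsion (RingEquiv.refl ℂ) e.toRingEquiv comm n,
    D5.card_torsion_FanG Γ hΓ hn, hg]

/-- D3 is proved (helper2 + helper8: `D3.exists_gamma_iso`) -/
theorem d3Stmt : D3Stmt := by
  intro F _ _ β hβ hbr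
  haveI := hβ.finite
  obtain ⟨Γ, hfin, e, hΓ, -⟩ := D3.exists_gamma_iso β hβ.transcendental hbr
  exact ⟨Γ, hfin, e, hΓ⟩

/-- **T1′, unconditionally**: the count over `ℂ` for Belyi curves -/
theorem belyiCountAt_complex' (n g : ℕ) (hn : 0 < n) : BelyiCountAt.{0, 0} ℂ n g :=
  belyiCountAt_complex d3Stmt n g hn

end Fermat.Agent.S27lib.T1
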