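/-
S27lib / T1 / Chain (helper6).  Glue steps of the short chain (helper7's #h7-NoBC) around T1′:
(a) `BelyiCountAt` for an ultrapower of `ℚ̄` isomorphic to `ℂ` (helper4's Steinitz `TC`, `Tsig`);
(b) Belyi's theorem (helper4's D2): over `ℚ̄`, `BelyiCountAt` is `CountAt`.
-/
import Mathlib
import Fermat.Agent.S27lib.T1.OverC
import Fermat.Agent.S27lib.TC.Steinitz
import Fermat.Agent.S27lib.Belyi.StepB

set_option autoImplicit false
set_option linter.style.haveILetI false
set_option linter.unusedSectionVars false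

noncomputable section

namespace Fermat.Agent.S27lib.T1

open AlgebraicCurve IntermediateField Fermat.Agent.S18lib Fermat.Agent.S27lib
open Fermat.Agent.S27lib.Tsig

/-- **(a)** the Belyi count holds over an ultrapower of `ℚ̄` (one which is isomorphic to `ℂ`) -/
theorem exists_belyiCountAt_germ (n g : ℕ) (hn : 0 < n) :
    ∃ (I : Type) (U : Ultrafilter I), BelyiCountAt.{0, 0} ((U : Filter I).Germ Qb) n g := by
  obtain ⟨I, U, ⟨σ⟩⟩ := TC.exists_ringEquiv_complex
  exact ⟨I, U, belyiCountAt_of_ringEquiv' σ.symm (belyiCountAt_complex' n g hn)⟩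

/-- **(b)** Belyi: over `ℚ̄` every function field carries a Belyi function -/
theorem countAt_Qb_of_belyiCountAt {n g : ℕ} (h : BelyiCountAt.{0, 0} Qb n g) :
    CountAt.{0, 0} Qb n g := by
  intro F _ _ x hx hfin hF
  haveI : Algebra.IsAlgebraic ℚ Qb := AlgebraicClosure.isAlgebraic ℚ
  exact h F x hx hfin hF (Belyi.exists_branchSet_subset_zero_one ⟨hx, hfin⟩)

end Fermat.Agent.S27lib.T1
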