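/-
S27lib / T1 / Short (helper6).  ASSEMBLY of the short chain (helper7's #h7-NoBC), with the diagonal
descent (TD) as HYPOTHESES (`TDStmt`, `TDBelyiStmt`; helper7 proves them):

  T1′ `BelyiCountAt ℂ`  ⇒(TC a, Tσ)  `BelyiCountAt (Germ U₀ ℚ̄)`  ⇒(TD, Belyi)  `BelyiCountAt ℚ̄`
   ⇒(D2)  `CountAt ℚ̄` = T1  ⇒(T2)  `CountAt (Germ U ℚ̄)`  ⇒(TC b, Tσ)  `CountAt (Germ U K)`
   ⇒(TD)  `CountAt K`  ⇒(BR1, BR2)  the frozen statement S27.
-/
import Mathlib
import Fermat.Agent.S27lib.T1.Chain
import Fermat.Agent.S27lib.T2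
import Fermat.Agent.S27lib.BR1.Main
import Fermat.Agent.S27lib.BR2.Main

set_option autoImplicit false
set_option linter.style.haveILetI false
set_option linter.unusedSectionVars false

noncomputable section

namespace Fermat.Agent.S27lib.T1

open AlgebraicCurve IntermediateField Fermat.Agent.S18lib Fermat.Agent.S27lib
open Fermat.Agent.S27lib.Tsig

universe u v w

/-- **(TD)** diagonal descent: the count for an ultrapower of `K` gives the count for `K`
(everything in one universe) -/
def TDStmt (n g : ℕ) : Prop :=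
  ∀ (I : Type w) (U : Ultrafilter I) (K : Type w) [Field K] [IsAlgClosed K] [CharZero K],
    CountAt.{w, w} ((U : Filter I).Germ K) n g → CountAt.{w, w} K n g

/-- **(TD), Belyi variant** over `ℚ̄` -/
def TDBelyiStmt (n g : ℕ) : Prop :=
  ∀ (I : Type) (U : Ultrafilter I),
    BelyiCountAt.{0, 0} ((U : Filter I).Germ Qb) n g → BelyiCountAt.{0, 0} Qb n g

/-- **T1** from the Belyi variant of (TD) -/
theorem t1Stmt_of_td {n g : ℕ} (hn : 0 < n) (hTDB : TDBelyiStmt n g) : T1Stmt n g := by
  obtain ⟨I, U, h⟩ := exists_belyiCountAt_germ n g hn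
  exact countAt_Qb_of_belyiCountAt (hTDB I U h)

/-- the count for every algebraically closed field of characteristic zero in one universe -/
theorem countAt_of_td_aux {n g : ℕ} (hn : 0 < n) (h1 : T1Stmt n g) (hTD : TDStmt.{w} n g)
    (K : Type w) [Field K] [IsAlgClosed K] [CharZero K] : CountAt.{w, w} K n g := by
  obtain ⟨I, U, ⟨σ⟩⟩ := TC.exists_ringEquiv_germ K
  have h2 : CountAt.{w, w} ((U : Filter I).Germ Qb) n g := t2Stmt.{w, w} n g hn I U h1
  exact hTD I U K (countAt_of_ringEquiv' σ.symm h2)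

/-- algebraic closedness along a ring isomorphism (universe polymorphic) -/
theorem isAlgClosed_of_ringEquiv' {k : Type u} {k' : Type v} [Field k] [Field k']
    (e : k ≃+* k') [IsAlgClosed k] : IsAlgClosed k' := by
  apply IsAlgClosed.of_exists_root
  intro p _ hp
  have hpe : Polynomial.degree (p.map e.symm.toRingHom) ≠ 0 := by
    rw [Polynomial.degree_map]
    exact ne_of_gt (Polynomial.degree_pos_of_irreducible hp)
  rcases IsAlgClosed.exists_root (k := k) (p.map e.symm.toRingHom) hpe with ⟨x, hx⟩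
  refine ⟨e x, ?_⟩
  rw [Polynomial.IsRoot, Polynomial.eval_map] at hx
  apply e.symm.injective
  show e.symm (Polynomial.eval (e x) p) = e.symm 0
  rw [map_zero, ← hx, ← Polynomial.eval₂_id]
  have h := Polynomial.hom_eval₂ p (RingHom.id k') (e.symm : k' →+* k) (e x)
  simp only [RingHom.coe_coe, RingEquiv.symm_apply_apply, RingHomCompTriple.comp_eq] at h
  exact h

/-- the count for every algebraically closed field of characteristic zero -/
theorem countAt_of_td {n g : ℕ} (hn : 0 < n) (h1 : T1Stmt n g) (hTD : TDStmt.{max u v} n g)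
    (K : Type u) [Field K] [IsAlgClosed K] [CharZero K] : CountAt.{u, v} K n g := by
  apply countAt_of_ulift
  let σ : K ≃+* ULift.{max u v} K := ULift.ringEquiv.symm
  haveI : IsAlgClosed (ULift.{max u v} K) := isAlgClosed_of_ringEquiv' σ
  haveI : CharZero (ULift.{max u v} K) := charZero_of_injective_ringHom (f := (σ : K →+* _))
    σ.injective
  exact countAt_of_td_aux hn h1 hTD (ULift.{max u v} K)

/-- **S27, in the shape of the frozen statement**, from (TD) -/
theorem s27_of_td
    (hTDB : ∀ n g, 0 < n → TDBelyiStmt n g) (hTD : ∀ n g, 0 < n → TDStmt.{max u v} n g)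
    (K : Type u) (F : Type v) [Field K] [Field F] [Algebra K F] [IsAlgClosed K] [CharZero K]
    [IsCurveOver K F] [Algebra.EssFiniteType K F]
    (ℓ : ℕ) [Fact ℓ.Prime] (k : ℕ) :
    Nat.card (Pic0.torsion K F (ℓ ^ k)) = ℓ ^ (2 * genusFF K F * k) := by
  have hn : 0 < ℓ ^ k := pow_pos (Fact.out : ℓ.Prime).pos k
  obtain ⟨x, hx, hfin⟩ := BR1.br1 K F
  haveI : CharZero K⟮x⟯ := charZero_of_injective_algebraMap (algebraMap K K⟮x⟯).injective
  have hF := RRgen.Canonical.isCurveOfGenus_genusOf K hx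
  have hg := BR2.genusFF_eq K F _ hF
  have h := countAt_of_td.{u, v} hn (t1Stmt_of_td hn (hTDB _ _ hn)) (hTD _ _ hn) K F x hx hfin hF
  rw [h, hg, ← pow_mul, mul_comm k]

end Fermat.Agent.S27lib.T1
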